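/-
S26lib / NormFin / Frobenius  (helper5)  --  Project K, finiteness of the integral closure

Two preparatory facts:
* `exists_finset_span_of_finite_ringHom` : for a FINITE ring map `θ : R → R'` from a noetherian
  ring and a finite `R'`-module `M`, every additive subgroup of `M` stable under `θ(R)` is spanned
  over `θ(R)` by finitely many of its elements;
* `finite_iterateFrobenius_mvPolynomial` : over a perfect field the iterated Frobenius of
  `K[x_i : i ∈ σ]`, `σ` finite, is a finite ring map.
-/
import Mathlib

set_option autoImplicit false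

noncomputable section

namespace Fermat.Agent.S26lib.NormFin

open MvPolynomial

/-- a `θ(R)`-stable additive subgroup of a finite `R'`-module is finitely spanned over `θ(R)`, for a
finite ring map `θ : R → R'` with `R` noetherian -/
theorem exists_finset_span_of_finite_ringHom {R R' M : Type*} [CommRing R] [IsNoetherianRing R]
    [CommRing R'] [AddCommGroup M] [Module R' M] [Module.Finite R' M] (θ : R →+* R')
    (hθ : θ.Finite) (N : AddSubgroup M) (hN : ∀ (r : R), ∀ n ∈ N, θ r • n ∈ N) :
    ∃ S : Finset M, (∀ s ∈ S, s ∈ N) ∧ ∀ n ∈ N, ∃ c : M → R, n = ∑ s ∈ S, θ (c s) • s := by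
  classical
  let _ : Algebra R R' := θ.toAlgebra
  let _ : Module R M := Module.compHom M θ
  have hsm : ∀ (r : R) (m : M), r • m = θ r • m := fun _ _ => rfl
  have : IsScalarTower R R' M := ⟨fun r r' m => by
    rw [hsm, Algebra.smul_def, mul_smul]
    rfl⟩
  have : Module.Finite R R' := hθ
  have : Module.Finite R M := Module.Finite.trans R' M
  let N' : Submodule R M :=
    { carrier := N
      add_mem' := N.add_mem
      zero_mem' := N.zero_mem
      smul_mem' := fun r n hn => hN r n hn }
  obtain ⟨S, hS⟩ := (IsNoetherian.noetherian N' : N'.FG)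
  refine ⟨S, fun s hs => ?_, fun n hn => ?_⟩
  · have : s ∈ N' := hS ▸ Submodule.subset_span hs
    exact this
  · have h1 : n ∈ Submodule.span R (S : Set M) := hS ▸ (show n ∈ N' from hn)
    rw [Submodule.mem_span_finset] at h1
    obtain ⟨c, _, rfl⟩ := h1
    exact ⟨c, rfl⟩

/-- over a perfect field the iterated Frobenius of a polynomial ring in finitely many variables is
a finite ring map -/
theorem finite_iterateFrobenius_mvPolynomial {σ K : Type*} [Finite σ] [Field K] [PerfectField K]
    (q : ℕ) [ExpChar K q] (e : ℕ) :
    (iterateFrobenius (MvPolynomial σ K) q e).Finite := by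
  classical
  have hpos : 0 < q ^ e := pow_pos (expChar_pos K q) e
  refine RingHom.IsIntegral.to_finite (fun y => ?_) ?_
  · refine ⟨Polynomial.X ^ (q ^ e) - Polynomial.C y, Polynomial.monic_X_pow_sub_C y hpos.ne', ?_⟩
    simp [iterateFrobenius_def]
  · let _ : Algebra (MvPolynomial σ K) (MvPolynomial σ K) :=
      (iterateFrobenius (MvPolynomial σ K) q e).toAlgebra
    show Algebra.FiniteType (MvPolynomial σ K) (MvPolynomial σ K)
    have hfin : (Set.range (X : σ → MvPolynomial σ K)).Finite := Set.finite_range _
    refine ⟨⟨hfin.toFinset, ?_⟩⟩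
    rw [Set.Finite.coe_toFinset, eq_top_iff]
    rintro f -
    induction f using MvPolynomial.induction_on with
    | C a =>
      obtain ⟨b, rfl⟩ := (bijective_iterateFrobenius (R := K) (p := q) (n := e)).2 a
      have : (C (iterateFrobenius K q e b) : MvPolynomial σ K) =
          algebraMap (MvPolynomial σ K) (MvPolynomial σ K) (C b) := by
        show _ = iterateFrobenius (MvPolynomial σ K) q e (C b)
        rw [iterateFrobenius_def, iterateFrobenius_def, map_pow]
      rw [this]
      exact Subalgebra.algebraMap_mem _ _
    | add f g hf hg => exact add_mem hf hg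
    | mul_X f i hf => exact mul_mem hf (Algebra.subset_adjoin ⟨i, rfl⟩)

end Fermat.Agent.S26lib.NormFin
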