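/-
S26lib / NormFin / MvPoly  (helper5)  --  Project K, finiteness of the integral closure

`K` perfect, `P = K[x_i : i ∈ σ]` (`σ` finite), `E = Frac P`, `F / E` ANY finite extension: the
integral closure of `P` in `F` is a finite `P`-module.  (Mathlib: separable case only.)

Proof: `F_s` the separable closure of `E` in `F`; the iterated Frobenius `Φ : F → F_s` is injective
and semilinear over the iterated Frobenius `θ` of `P`, which is FINITE (`K` perfect); `Φ` maps the
integral closure `C` into the integral closure `C_s ⊂ F_s`, a finite `P`-module, hence a noetherian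
module over `θ(P)`; pull generators of `Φ(C)` back.
-/
import Mathlib
import Fermat.Agent.S26lib.NormFin.Frobenius

set_option autoImplicit false

noncomputable section

namespace Fermat.Agent.S26lib.NormFin

open MvPolynomial

/-- **finiteness of the integral closure of a polynomial ring over a perfect field in ANY finite
extension of its fraction field** -/
theorem finite_integralClosure_mvPolynomial (σ K E F : Type*) [Finite σ] [Field K] [PerfectField K]
    [Field E] [Algebra (MvPolynomial σ K) E] [IsFractionRing (MvPolynomial σ K) E]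
    [Field F] [Algebra (MvPolynomial σ K) F] [Algebra E F]
    [IsScalarTower (MvPolynomial σ K) E F] [FiniteDimensional E F] :
    Module.Finite (MvPolynomial σ K) (integralClosure (MvPolynomial σ K) F) := by
  classical
  obtain ⟨q, hq⟩ := ExpChar.exists K
  have hEq : ExpChar E q :=
    expChar_of_injective_algebraMap (IsFractionRing.injective (MvPolynomial σ K) E) q
  have hFq : ExpChar F q := expChar_of_injective_algebraMap (algebraMap E F).injective q
  let Fs := separableClosure E F
  have hFsq : ExpChar Fs q := expChar_of_injective_algebraMap (algebraMap E Fs).injective q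
  have hpi : IsPurelyInseparable Fs F := separableClosure.isPurelyInseparable E F
  have htow : IsScalarTower (MvPolynomial σ K) Fs F := IsScalarTower.of_algebraMap_eq fun x => rfl
  set e := IsPurelyInseparable.exponent Fs F with he
  let Φ : F →+* Fs := IsPurelyInseparable.iterateFrobenius Fs F q (le_refl e)
  have hΦ : ∀ y : F, algebraMap Fs F (Φ y) = y ^ q ^ e := fun y =>
    IsPurelyInseparable.algebraMap_iterateFrobenius Fs q (le_refl e) y
  have hinjF : Function.Injective (algebraMap Fs F) := (algebraMap Fs F).injective
  let θ : MvPolynomial σ K →+* MvPolynomial σ K := iterateFrobenius (MvPolynomial σ K) q e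
  have hθ : θ.Finite := finite_iterateFrobenius_mvPolynomial q e
  have hCsfin : Module.Finite (MvPolynomial σ K) (integralClosure (MvPolynomial σ K) Fs) :=
    IsIntegralClosure.finite (MvPolynomial σ K) E Fs (integralClosure (MvPolynomial σ K) Fs)
  -- semilinearity of `Φ`
  have hΦalg : ∀ f : MvPolynomial σ K,
      Φ (algebraMap (MvPolynomial σ K) F f) = algebraMap (MvPolynomial σ K) Fs (θ f) := by
    intro f
    apply hinjF
    rw [hΦ, ← IsScalarTower.algebraMap_apply]
    show _ = algebraMap (MvPolynomial σ K) F (iterateFrobenius (MvPolynomial σ K) q e f)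
    rw [iterateFrobenius_def, map_pow]
  have hΦint : ∀ y : F, IsIntegral (MvPolynomial σ K) y → IsIntegral (MvPolynomial σ K) (Φ y) :=
    fun y hy => by
      rw [← isIntegral_algebraMap_iff hinjF, hΦ]
      exact hy.pow _
  -- the image of the integral closure
  let N : AddSubgroup (integralClosure (MvPolynomial σ K) Fs) :=
    { carrier := {c | ∃ y : F, IsIntegral (MvPolynomial σ K) y ∧ Φ y = (c : Fs)}
      zero_mem' := ⟨0, isIntegral_zero, by simp⟩
      add_mem' := by
        rintro a b ⟨y, hy, hya⟩ ⟨z, hz, hzb⟩
        exact ⟨y + z, hy.add hz, by rw [map_add, hya, hzb]; rfl⟩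
      neg_mem' := by
        rintro a ⟨y, hy, hya⟩
        exact ⟨-y, hy.neg, by rw [map_neg, hya]; rfl⟩ }
  have hN : ∀ (r : MvPolynomial σ K), ∀ n ∈ N, θ r • n ∈ N := by
    rintro r n ⟨y, hy, hyn⟩
    refine ⟨algebraMap (MvPolynomial σ K) F r * y, isIntegral_algebraMap.mul hy, ?_⟩
    rw [map_mul, hΦalg, hyn]
    show _ = ((θ r • n : integralClosure (MvPolynomial σ K) Fs) : Fs)
    rw [Algebra.smul_def]
    rfl
  obtain ⟨S, hSN, hS⟩ := exists_finset_span_of_finite_ringHom θ hθ N hN
  choose! y hyint hyΦ using hSN
  suffices h : (Subalgebra.toSubmodule (integralClosure (MvPolynomial σ K) F)).FG from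
    Module.Finite.iff_fg.2 h
  refine ⟨S.image y, le_antisymm (Submodule.span_le.2 ?_) fun z hz => ?_⟩
  · intro w hw
    rw [Finset.coe_image] at hw
    obtain ⟨s, hs, rfl⟩ := hw
    exact hyint s hs
  · have hz' : IsIntegral (MvPolynomial σ K) z := hz
    obtain ⟨c, hc⟩ := hS ⟨Φ z, hΦint z hz'⟩ ⟨z, hz', rfl⟩
    have h1 : Φ z = Φ (∑ s ∈ S, c s • y s) := by
      have := congrArg (Subtype.val) hc
      rw [map_sum]
      simp only [AddSubmonoidClass.coe_finsetSum] at this
      rw [this]
      refine Finset.sum_congr rfl fun s hs => ?_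
      have h2 : Φ (c s • y s) = algebraMap (MvPolynomial σ K) Fs (θ (c s)) * (s : Fs) := by
        rw [Algebra.smul_def, map_mul, hΦalg, hyΦ s hs]
      rw [h2, Algebra.smul_def]
      rfl
    rw [Φ.injective h1]
    refine Submodule.sum_mem _ fun s hs => Submodule.smul_mem _ _ (Submodule.subset_span ?_)
    rw [Finset.coe_image]
    exact ⟨s, hs, rfl⟩

end Fermat.Agent.S26lib.NormFin
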