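/-
S26lib / NormFin / Main  (helper5)  --  Project K, FINITENESS OF THE INTEGRAL CLOSURE

`K` a perfect field, `B` a finitely generated `K`-algebra which is a domain, `F = Frac B`,
`L / F` ANY finite field extension.  Then the integral closure of `B` in `L` is a finite `B`-module
(E. Noether).  In particular (`L = F`) the normalisation of `B` is finite over `B`.

Noether normalisation `P = K[x_1..x_s] ↪ B` (finite) reduces this to `NormFin/MvPoly`.
-/
import Mathlib
import Fermat.Agent.S26lib.NormFin.MvPoly

set_option autoImplicit false

noncomputable section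

namespace Fermat.Agent.S26lib.NormFin

open MvPolynomial nonZeroDivisors

/-- the abstract form: `B` a domain finite over the polynomial ring `P` -/
theorem finite_integralClosure_aux (σ K B E F L : Type*) [Finite σ] [Field K] [PerfectField K]
    [CommRing B] [IsDomain B] [Algebra (MvPolynomial σ K) B]
    [Module.Finite (MvPolynomial σ K) B] [FaithfulSMul (MvPolynomial σ K) B]
    [Field E] [Algebra (MvPolynomial σ K) E] [IsFractionRing (MvPolynomial σ K) E]
    [Field F] [Algebra B F] [IsFractionRing B F] [Algebra (MvPolynomial σ K) F]
    [IsScalarTower (MvPolynomial σ K) B F] [Algebra E F] [IsScalarTower (MvPolynomial σ K) E F]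
    [Field L] [Algebra F L] [FiniteDimensional F L] [Algebra B L] [IsScalarTower B F L]
    [Algebra (MvPolynomial σ K) L] [IsScalarTower (MvPolynomial σ K) B L]
    [Algebra E L] [IsScalarTower E F L] [IsScalarTower (MvPolynomial σ K) E L] :
    Module.Finite B (integralClosure B L) := by
  classical
  have hEF : Module.Finite E F :=
    Module.Finite.of_isLocalization (MvPolynomial σ K) B (MvPolynomial σ K)⁰
  have hEL : FiniteDimensional E L := Module.Finite.trans F L
  have h1 : Module.Finite (MvPolynomial σ K) (integralClosure (MvPolynomial σ K) L) :=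
    finite_integralClosure_mvPolynomial σ K E L
  have h2 : (Subalgebra.toSubmodule (integralClosure (MvPolynomial σ K) L)).FG :=
    Module.Finite.iff_fg.1 h1
  obtain ⟨S, hS⟩ := h2
  suffices h : (Subalgebra.toSubmodule (integralClosure B L)).FG from Module.Finite.iff_fg.2 h
  refine ⟨S, le_antisymm (Submodule.span_le.2 fun w hw => ?_) fun z hz => ?_⟩
  · have hw' : w ∈ Subalgebra.toSubmodule (integralClosure (MvPolynomial σ K) L) :=
      hS ▸ Submodule.subset_span hw
    have hw'' : IsIntegral (MvPolynomial σ K) w := hw'
    exact hw''.tower_top
  · have hz' : IsIntegral B z := hz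
    have hz'' : IsIntegral (MvPolynomial σ K) z := isIntegral_trans z hz'
    have hz3 : z ∈ Submodule.span (MvPolynomial σ K) (S : Set L) := hS ▸ hz''
    rw [Submodule.mem_span_finset] at hz3
    obtain ⟨c, _, rfl⟩ := hz3
    refine Submodule.sum_mem _ fun s hs => ?_
    rw [← algebraMap_smul B (c s) s]
    exact Submodule.smul_mem _ _ (Submodule.subset_span hs)

/-- **FINITENESS OF THE INTEGRAL CLOSURE** of a finitely generated domain over a perfect field in
any finite extension of its fraction field. -/
theorem finite_integralClosure (K B F L : Type*) [Field K] [PerfectField K] [CommRing B]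
    [IsDomain B] [Algebra K B] [Algebra.FiniteType K B] [Field F] [Algebra B F]
    [IsFractionRing B F] [Field L] [Algebra F L] [Algebra B L] [IsScalarTower B F L]
    [FiniteDimensional F L] : Module.Finite B (integralClosure B L) := by
  classical
  obtain ⟨s, g, hginj, hgfin⟩ := exists_finite_inj_algHom_of_fg K B
  let algPB : Algebra (MvPolynomial (Fin s) K) B := g.toRingHom.toAlgebra
  have finPB : Module.Finite (MvPolynomial (Fin s) K) B := hgfin
  have faithPB : FaithfulSMul (MvPolynomial (Fin s) K) B :=
    (faithfulSMul_iff_algebraMap_injective _ _).2 hginj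
  let algPF : Algebra (MvPolynomial (Fin s) K) F :=
    ((algebraMap B F).comp (algebraMap (MvPolynomial (Fin s) K) B)).toAlgebra
  have tPBF : IsScalarTower (MvPolynomial (Fin s) K) B F :=
    IsScalarTower.of_algebraMap_eq fun x => rfl
  have faithPF : FaithfulSMul (MvPolynomial (Fin s) K) F :=
    (faithfulSMul_iff_algebraMap_injective _ _).2
      ((IsFractionRing.injective B F).comp hginj)
  let algEF : Algebra (FractionRing (MvPolynomial (Fin s) K)) F :=
    FractionRing.liftAlgebra (MvPolynomial (Fin s) K) F
  have tPEF : IsScalarTower (MvPolynomial (Fin s) K) (FractionRing (MvPolynomial (Fin s) K)) F :=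
    FractionRing.isScalarTower_liftAlgebra (MvPolynomial (Fin s) K) F
  let algPL : Algebra (MvPolynomial (Fin s) K) L :=
    ((algebraMap B L).comp (algebraMap (MvPolynomial (Fin s) K) B)).toAlgebra
  have tPBL : IsScalarTower (MvPolynomial (Fin s) K) B L :=
    IsScalarTower.of_algebraMap_eq fun x => rfl
  let algEL : Algebra (FractionRing (MvPolynomial (Fin s) K)) L :=
    ((algebraMap F L).comp (algebraMap (FractionRing (MvPolynomial (Fin s) K)) F)).toAlgebra
  have tEFL : IsScalarTower (FractionRing (MvPolynomial (Fin s) K)) F L :=
    IsScalarTower.of_algebraMap_eq fun x => rfl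
  have tPEL : IsScalarTower (MvPolynomial (Fin s) K) (FractionRing (MvPolynomial (Fin s) K)) L :=
    IsScalarTower.of_algebraMap_eq fun x => by
      show algebraMap B L (algebraMap (MvPolynomial (Fin s) K) B x) =
        algebraMap F L (algebraMap (FractionRing (MvPolynomial (Fin s) K)) F
          (algebraMap (MvPolynomial (Fin s) K) (FractionRing (MvPolynomial (Fin s) K)) x))
      rw [← IsScalarTower.algebraMap_apply (MvPolynomial (Fin s) K)
        (FractionRing (MvPolynomial (Fin s) K)) F, IsScalarTower.algebraMap_apply B F L]
      rfl
  exact finite_integralClosure_aux (Fin s) K B (FractionRing (MvPolynomial (Fin s) K)) F L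

/-- the normalisation of a finitely generated domain over a perfect field is finite -/
theorem finite_integralClosure_self (K B F : Type*) [Field K] [PerfectField K] [CommRing B]
    [IsDomain B] [Algebra K B] [Algebra.FiniteType K B] [Field F] [Algebra B F]
    [IsFractionRing B F] : Module.Finite B (integralClosure B F) :=
  finite_integralClosure K B F F

/-- the same for a finitely generated `K`-algebra `R` mapping to a field `L` which is the fraction
field of the IMAGE of `R` (e.g. `R = Γ(U, O_X)`, `L` the residue field of a point of `U`) -/
theorem finite_integralClosure_of_fraction (K R L : Type*) [Field K] [PerfectField K] [CommRing R]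
    [Algebra K R] [Algebra.FiniteType K R] [Field L] [Algebra R L] [Algebra K L]
    [IsScalarTower K R L]
    (hfrac : ∀ z : L, ∃ x y : R, z = algebraMap R L x / algebraMap R L y) :
    Module.Finite R (integralClosure R L) := by
  classical
  let φ : R →ₐ[K] L := IsScalarTower.toAlgHom K R L
  have hφ : ∀ r, φ r = algebraMap R L r := fun _ => rfl
  have hBft : Algebra.FiniteType K φ.range :=
    Algebra.FiniteType.of_surjective φ.rangeRestrict φ.rangeRestrict_surjective
  have hBfrac : IsFractionRing φ.range L := IsFractionRing.of_field (R := φ.range) (K := L) fun z => by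
    obtain ⟨x, y, h⟩ := hfrac z
    exact ⟨⟨φ x, x, rfl⟩, ⟨φ y, y, rfl⟩, h⟩
  have h1 : Module.Finite φ.range (integralClosure φ.range L) :=
    finite_integralClosure_self K φ.range L
  let algRB : Algebra R φ.range := φ.rangeRestrict.toRingHom.toAlgebra
  have tRBL : IsScalarTower R φ.range L := IsScalarTower.of_algebraMap_eq fun x => rfl
  have hint : Algebra.IsIntegral R φ.range :=
    Algebra.isIntegral_of_surjective φ.rangeRestrict_surjective
  have h2 : (Subalgebra.toSubmodule (integralClosure φ.range L)).FG := Module.Finite.iff_fg.1 h1
  obtain ⟨S, hS⟩ := h2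
  suffices h : (Subalgebra.toSubmodule (integralClosure R L)).FG from Module.Finite.iff_fg.2 h
  refine ⟨S, le_antisymm (Submodule.span_le.2 fun w hw => ?_) fun z hz => ?_⟩
  · have hw' : w ∈ Subalgebra.toSubmodule (integralClosure φ.range L) :=
      hS ▸ Submodule.subset_span hw
    have hw'' : IsIntegral φ.range w := hw'
    exact isIntegral_trans w hw''
  · have hz' : IsIntegral R z := hz
    have hz'' : IsIntegral φ.range z := hz'.tower_top
    have hz3 : z ∈ Submodule.span φ.range (S : Set L) := hS ▸ hz''
    rw [Submodule.mem_span_finset] at hz3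
    obtain ⟨c, _, rfl⟩ := hz3
    refine Submodule.sum_mem _ fun s hs => ?_
    obtain ⟨r, hr⟩ := φ.rangeRestrict_surjective (c s)
    have : c s • s = r • s := by
      rw [← hr, Algebra.smul_def, Algebra.smul_def]
      rfl
    rw [this]
    exact Submodule.smul_mem _ _ (Submodule.subset_span hs)

end Fermat.Agent.S26lib.NormFin
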